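import Mathlib.RingTheory.Ideal.GoingUp
import Mathlib.RingTheory.Ideal.Over
import Mathlib.RingTheory.Algebraic.Basic
import Mathlib.Algebra.CharP.Frobenius
import Mathlib.Algebra.CharP.Quotient
import Mathlib.RingTheory.Int.Basic
import Mathlib.RingTheory.Ideal.Quotient.Operations
import Mathlib.RingTheory.PrincipalIdealDomain

set_option autoImplicit false

namespace Fermat.Agent.S54

/-- The Frobenius `x ↦ x ^ l` is an automorphism of `B ⧸ Q` over `ℤ ⧸ (l)` whenever `B` is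
integral over `ℤ` and `Q` is a prime of `B` above `l`. -/
theorem exists_frobenius_algEquiv {B : Type*} [CommRing B] [Algebra ℤ B] [Algebra.IsIntegral ℤ B]
    (l : ℕ)
    (hl : l.Prime) (Q : Ideal B) [Q.IsPrime] [Q.LiesOver (Ideal.span {(l : ℤ)})] :
    ∃ τ : (B ⧸ Q) ≃ₐ[ℤ ⧸ Ideal.span {(l : ℤ)}] (B ⧸ Q), ∀ x, τ x = x ^ l := by
  have hlprime : Prime (l : ℤ) := Nat.prime_iff_prime_int.mp hl
  have hPmax : (Ideal.span {(l : ℤ)}).IsMaximal :=
    PrincipalIdealRing.isMaximal_of_irreducible hlprime.irreducible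
  have hQmax : Q.IsMaximal := Ideal.IsMaximal.of_liesOver_isMaximal Q (Ideal.span {(l : ℤ)})
  let _ : Field (B ⧸ Q) := Ideal.Quotient.field Q
  -- characteristic `l`
  have hlQ : ((l : ℕ) : B ⧸ Q) = 0 := by
    have h1 : ((l : ℤ) : B) ∈ Q := by
      have h2 : (l : ℤ) ∈ Q.under ℤ := by
        rw [← Q.over_def (Ideal.span {(l : ℤ)})]
        exact Ideal.mem_span_singleton_self _
      simpa [Ideal.under, Ideal.mem_comap] using h2
    have h3 : (Ideal.Quotient.mk Q) ((l : ℤ) : B) = 0 := Ideal.Quotient.eq_zero_iff_mem.mpr h1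
    simpa using h3
  have hchar : CharP (B ⧸ Q) l := by
    obtain ⟨p, hp⟩ := CharP.exists (B ⧸ Q)
    have hdvd : p ∣ l := (CharP.cast_eq_zero_iff (B ⧸ Q) p l).mp hlQ
    rcases (Nat.dvd_prime hl).mp hdvd with h | h
    · subst h
      exact absurd rfl (CharP.char_ne_one (B ⧸ Q) 1)
    · subst h
      exact hp
  have : Fact l.Prime := ⟨hl⟩
  have hexp : ExpChar (B ⧸ Q) l := ExpChar.prime hl
  let f : (B ⧸ Q) →ₐ[ℤ ⧸ Ideal.span {(l : ℤ)}] (B ⧸ Q) :=
    { frobenius (B ⧸ Q) l with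
      commutes' := by
        intro r
        have hcomp : (frobenius (B ⧸ Q) l).comp (algebraMap (ℤ ⧸ Ideal.span {(l : ℤ)}) (B ⧸ Q)) =
            algebraMap (ℤ ⧸ Ideal.span {(l : ℤ)}) (B ⧸ Q) := by
          apply Ideal.Quotient.ringHom_ext
          exact RingHom.ext_int _ _
        exact congrArg (fun g => g r) hcomp }
  have hbij : Function.Bijective f := Algebra.IsAlgebraic.algHom_bijective f
  exact ⟨AlgEquiv.ofBijective f hbij, fun x => rfl⟩

end Fermat.Agent.S54
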