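import Fermat.Agent.S54.Helper96Frac
import Fermat.Agent.S54.Helper54Frob
import Fermat.Prelude.Def_EllipticCurve_FrobeniusTrace
import Fermat.Prelude.Def_FLTPrelim_Ramification
import Mathlib.RingTheory.Invariant.Profinite
import Mathlib.FieldTheory.KrullTopology
import Mathlib.FieldTheory.Galois.Profinite
import Mathlib.FieldTheory.Galois.Infinite
import Mathlib.RingTheory.Valuation.LocalSubring
import Mathlib.RingTheory.Valuation.RamificationGroup
import Mathlib.FieldTheory.IsAlgClosed.AlgebraicClosure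
import Mathlib.Tactic.LinearCombination

set_option autoImplicit false
set_option linter.style.haveILetI false
set_option linter.unusedVariables false

namespace Fermat.Agent.S54

open Polynomial
open scoped Pointwise

/-- Version of `exists_frobenius_algEquiv` for an arbitrary `ℤ`-algebra structure. -/
theorem h96_exists_frobenius_algEquiv_of_algebra {B : Type*} [CommRing B] [inst : Algebra ℤ B]
    [Algebra.IsIntegral ℤ B] (l : ℕ) (hl : l.Prime) (Q : Ideal B) [Q.IsPrime]
    [Q.LiesOver (Ideal.span {(l : ℤ)})] :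
    ∃ τ : (B ⧸ Q) ≃ₐ[ℤ ⧸ Ideal.span {(l : ℤ)}] (B ⧸ Q), ∀ x, τ x = x ^ l := by
  obtain rfl : inst = Ring.toIntAlgebra B := Subsingleton.elim _ _
  exact exists_frobenius_algEquiv l hl Q

section Frob

local notation "Qb" => AlgebraicClosure ℚ
local notation "OQb" => integralClosure ℤ (AlgebraicClosure ℚ)
local notation "GQ" => AlgebraicClosure ℚ ≃ₐ[ℚ] AlgebraicClosure ℚ

theorem h96_algClosure_rat_algebra_eq :
    (DivisionRing.toRatAlgebra : Algebra ℚ (AlgebraicClosure ℚ)) = AlgebraicClosure.instAlgebra ℚ :=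
  Subsingleton.elim _ _

theorem h96_isAlgClosure_rat : IsAlgClosure ℚ (AlgebraicClosure ℚ) := by
  rw [h96_algClosure_rat_algebra_eq]; infer_instance

attribute [local instance] h96_isAlgClosure_rat

/-- The Galois action on the ring of algebraic integers. -/
@[reducible] noncomputable def h96_galActionInt : MulSemiringAction GQ OQb where
  smul g b := ⟨g b.1, map_isIntegral_int g b.2⟩
  one_smul _ := rfl
  mul_smul _ _ _ := rfl
  smul_zero g := Subtype.ext (map_zero g)
  smul_add g a b := Subtype.ext (map_add g _ _)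
  smul_one g := Subtype.ext (map_one g)
  smul_mul g a b := Subtype.ext (map_mul g _ _)

attribute [local instance] h96_galActionInt

theorem h96_galActionInt_coe (g : GQ) (b : OQb) : ((g • b : OQb) : Qb) = g (b : Qb) := rfl

theorem h96_galActionInt_isInvariant : Algebra.IsInvariant ℤ OQb GQ := by
  refine ⟨fun b hb => ?_⟩
  have hfix : (b : Qb) ∈ IntermediateField.fixedField (⊤ : Subgroup GQ) := by
    rintro ⟨g, -⟩
    exact congrArg Subtype.val (hb g)
  rw [InfiniteGalois.fixedField_bot, IntermediateField.mem_bot] at hfix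
  obtain ⟨q, hq⟩ := hfix
  have hbint : IsIntegral ℤ (b : Qb) := b.2
  rw [← hq, isIntegral_algebraMap_iff (FaithfulSMul.algebraMap_injective ℚ Qb)] at hbint
  obtain ⟨a, rfl⟩ := IsIntegrallyClosed.algebraMap_eq_of_integral hbint
  refine ⟨a, Subtype.ext ?_⟩
  rw [← hq]
  simp

theorem h96_galActionInt_smulCommClass : SMulCommClass GQ ℤ OQb :=
  ⟨fun g n b => Subtype.ext (by
    show g ((n • b : OQb) : Qb) = n • g (b : Qb)
    simp)⟩

attribute [local instance] h96_galActionInt_smulCommClass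

theorem exists_isFrobeniusAt (l : ℕ) (hl : l.Prime) :
    ∃ (A : ValuationSubring Qb) (σ : GQ), A.LiesOverPrime l ∧ A.IsFrobeniusAt σ l := by
  letI : TopologicalSpace OQb := ⊥
  haveI : DiscreteTopology OQb := ⟨rfl⟩
  haveI : ContinuousSMul GQ OQb := by
    rw [continuousSMul_iff_stabilizer_isOpen]
    intro b
    have : (MulAction.stabilizer GQ b : Set GQ) = (MulAction.stabilizer GQ (b : Qb) : Set GQ) := by
      ext g
      simp only [SetLike.mem_coe, MulAction.mem_stabilizer_iff]
      exact Subtype.ext_iff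
    rw [this]
    exact stabilizer_isOpen_of_isIntegral (b : Qb)
  haveI := h96_galActionInt_isInvariant
  -- the primes
  haveI : (Ideal.span {(l : ℤ)}).IsMaximal :=
    PrincipalIdealRing.isMaximal_of_irreducible (Nat.prime_iff_prime_int.mp hl).irreducible
  obtain ⟨Q, hQmax, hQP⟩ := Ideal.exists_ideal_over_maximal_of_isIntegral (S := OQb)
    (Ideal.span {(l : ℤ)}) (by
      rw [(RingHom.injective_iff_ker_eq_bot _).mp (FaithfulSMul.algebraMap_injective ℤ OQb)]
      exact bot_le)
  haveI : Q.LiesOver (Ideal.span {(l : ℤ)}) := ⟨hQP.symm⟩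
  haveI : Q.IsPrime := hQmax.isPrime
  obtain ⟨τ, hτ⟩ := h96_exists_frobenius_algEquiv_of_algebra l hl Q
  obtain ⟨⟨g, hg⟩, hgτ⟩ := Ideal.Quotient.stabilizerHom_surjective_of_profinite (G := GQ)
    (Ideal.span {(l : ℤ)}) Q τ
  -- properties of g
  have hgQ : ∀ b : OQb, g • b - b ^ l ∈ Q := by
    intro b
    rw [← Ideal.Quotient.eq, map_pow, ← hτ, ← hgτ]
    rfl
  have hgstab : ∀ b : OQb, b ∈ Q ↔ g • b ∈ Q := by
    intro b
    have hg' : g • Q = Q := hg
    conv_rhs => rw [← hg']
    exact Ideal.smul_mem_pointwise_smul_iff.symm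
  -- the valuation ring
  have hQne : (Q : Ideal OQb) ≠ ⊤ := hQmax.ne_top
  obtain ⟨V, hBV, hQV⟩ :=
    Ideal.image_subset_nonunits_valuationSubring (A := (OQb).toSubring) Q hQne
  have hBV' : ∀ b : OQb, (b : Qb) ∈ V := fun b => hBV b.2
  have hQV1 : ∀ b : OQb, b ∈ Q → (b : Qb) ∈ V.nonunits := fun b hb => hQV ⟨b, hb, rfl⟩
  have hQV2 : ∀ b : OQb, b ∉ Q → (b : Qb) ∉ V.nonunits := by
    intro b hb hmem
    obtain ⟨y, i, hi, hyi⟩ := hQmax.exists_inv hb
    have h1 : (y : Qb) * (b : Qb) + (i : Qb) = 1 := by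
      have := congrArg (Subtype.val) hyi
      simpa using this
    have h2 : V.valuation ((y : Qb) * (b : Qb) + (i : Qb)) < 1 := by
      apply Valuation.map_add_lt
      · rw [map_mul]
        calc V.valuation (y : Qb) * V.valuation (b : Qb) ≤ 1 * V.valuation (b : Qb) := by
              gcongr
              exact (ValuationSubring.valuation_le_one_iff V _).mpr (hBV' y)
          _ < 1 := by rw [one_mul]; exact hmem
      · exact hQV1 i hi
    rw [h1, map_one] at h2
    exact lt_irrefl _ h2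
  have hlV : (l : Qb) ∈ V.nonunits := by
    have hlQ : (algebraMap ℤ OQb (l : ℤ)) ∈ Q := by
      have : (l : ℤ) ∈ Ideal.span {(l : ℤ)} := Ideal.subset_span rfl
      rw [← hQP] at this
      exact this
    have := hQV1 _ hlQ
    simpa using this
  -- fractions
  have hfrac : ∀ x ∈ V, ∃ b s : OQb, s ∉ Q ∧ x * (s : Qb) = (b : Qb) := by
    intro x hx
    have hxalg : IsAlgebraic ℤ x :=
      (IsFractionRing.isAlgebraic_iff ℤ ℚ Qb).mpr (Algebra.IsAlgebraic.isAlgebraic x)
    obtain ⟨b, hb, s, hs, hsV, hxs⟩ := h96_exists_frac V l hl hlV x hx hxalg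
    exact ⟨⟨b, hb⟩, ⟨s, hs⟩, fun hsQ => hsV (hQV1 _ hsQ), hxs⟩
  have hval1 : ∀ b : OQb, b ∉ Q → V.valuation (b : Qb) = 1 := by
    intro b hb
    exact le_antisymm ((ValuationSubring.valuation_le_one_iff V _).mpr (hBV' _))
      (not_lt.mp (hQV2 _ hb))
  -- stability
  have hstab : ∀ h : GQ, (∀ b : OQb, b ∈ Q ↔ h • b ∈ Q) → ∀ x ∈ V, h x ∈ V := by
    intro h hh x hx
    obtain ⟨b, s, hs, hxs⟩ := hfrac x hx
    have h1 : h x * ((h • s : OQb) : Qb) = ((h • b : OQb) : Qb) := by
      rw [h96_galActionInt_coe, h96_galActionInt_coe, ← map_mul, hxs]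
    have hs' : V.valuation ((h • s : OQb) : Qb) = 1 :=
      hval1 _ (fun hmem => hs ((hh s).mpr hmem))
    rw [← ValuationSubring.valuation_le_one_iff]
    have := congrArg V.valuation h1
    rw [map_mul, hs', mul_one] at this
    rw [this]
    exact (ValuationSubring.valuation_le_one_iff V _).mpr (hBV' _)
  have hginv : ∀ b : OQb, b ∈ Q ↔ g⁻¹ • b ∈ Q := by
    intro b
    rw [hgstab (g⁻¹ • b), smul_inv_smul]
  have hgV : g ∈ V.decompositionSubgroup ℚ := by
    rw [MulAction.mem_stabilizer_iff]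
    ext x
    rw [ValuationSubring.mem_pointwise_smul_iff_inv_smul_mem]
    constructor
    · intro hx
      have := hstab g hgstab _ hx
      rwa [AlgEquiv.smul_def, ← AlgEquiv.mul_apply, mul_inv_cancel, AlgEquiv.one_apply] at this
    · intro hx
      exact hstab g⁻¹ hginv x hx
  refine ⟨V, g, hlV, hgV, ?_⟩
  intro x
  obtain ⟨y, rfl⟩ := IsLocalRing.residue_surjective x
  rw [← IsLocalRing.ResidueField.residue_smul, ← map_pow, ← sub_eq_zero, ← map_sub,
    IsLocalRing.residue_eq_zero_iff, ValuationSubring.valuation_lt_one_iff]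
  obtain ⟨b, s, hs, hxs⟩ := hfrac y y.2
  have hcoe : ((((⟨g, hgV⟩ : V.decompositionSubgroup ℚ) • y - y ^ l : V)) : Qb) =
      g (y : Qb) - (y : Qb) ^ l := rfl
  rw [hcoe]
  have hgs : g • s ∉ Q := fun h => hs ((hgstab s).mpr h)
  have hunit : V.valuation (((g • s) * s ^ l : OQb) : Qb) = 1 :=
    hval1 _ (fun h => (Ideal.IsPrime.mem_or_mem ‹Q.IsPrime› h).elim hgs
      (fun h' => hs (Ideal.IsPrime.mem_of_pow_mem ‹Q.IsPrime› _ h')))
  have hnum : V.valuation
      ((((g • b - b ^ l) * s ^ l - b ^ l * (g • s - s ^ l) : OQb)) : Qb) < 1 :=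
    hQV1 _ (Q.sub_mem (Q.mul_mem_right _ (hgQ b)) (Q.mul_mem_left _ (hgQ s)))
  have hkey : (g (y : Qb) - (y : Qb) ^ l) * (((g • s) * s ^ l : OQb) : Qb) =
      ((((g • b - b ^ l) * s ^ l - b ^ l * (g • s - s ^ l) : OQb)) : Qb) := by
    have e1 : g (y : Qb) * g (s : Qb) = g (b : Qb) := by rw [← map_mul, hxs]
    have e2 : (y : Qb) ^ l * (s : Qb) ^ l = (b : Qb) ^ l := by rw [← mul_pow, hxs]
    push_cast
    rw [h96_galActionInt_coe, h96_galActionInt_coe]
    linear_combination (s : Qb) ^ l * e1 - g (s : Qb) * e2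
  have := congrArg V.valuation hkey
  rw [map_mul, hunit, mul_one] at this
  rw [this]
  exact hnum

end Frob

end Fermat.Agent.S54
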