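import Fermat.Agent.S54.Helper54Val
import Fermat.Agent.S54.Helper54Frob
import Mathlib.RingTheory.Invariant.Profinite
import Mathlib.FieldTheory.Galois.Profinite
import Mathlib.FieldTheory.KrullTopology
import Mathlib.FieldTheory.Galois.Infinite

set_option autoImplicit false

namespace Fermat.Agent.S54

section Generic

variable {L : Type*} [Field L] [CharZero L]

/-- The action of the Galois group on the ring of algebraic integers. -/
@[reducible] noncomputable def h54Action :
    MulSemiringAction (L ≃ₐ[ℚ] L) (integralClosure ℤ L) where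
  smul σ b := ⟨σ (b : L), map_isIntegral_int σ b.2⟩
  one_smul _ := Subtype.ext rfl
  mul_smul _ _ _ := Subtype.ext rfl
  smul_zero σ := Subtype.ext (map_zero σ)
  smul_add σ _ _ := Subtype.ext (map_add σ _ _)
  smul_one σ := Subtype.ext (map_one σ)
  smul_mul σ _ _ := Subtype.ext (map_mul σ _ _)

attribute [local instance] h54Action

theorem h54_coe_smul (σ : L ≃ₐ[ℚ] L) (b : integralClosure ℤ L) :
    ((σ • b : integralClosure ℤ L) : L) = σ (b : L) := rfl

theorem h54_smulCommClass : SMulCommClass (L ≃ₐ[ℚ] L) ℤ (integralClosure ℤ L) where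
  smul_comm σ n b := by
    apply Subtype.ext
    rw [h54_coe_smul]
    simp only [SetLike.val_smul]
    rw [h54_coe_smul, map_zsmul]

theorem h54_isInvariant [IsGalois ℚ L] :
    Algebra.IsInvariant ℤ (integralClosure ℤ L) (L ≃ₐ[ℚ] L) where
  isInvariant b hb := by
    have hfix : ∀ σ : L ≃ₐ[ℚ] L, σ (b : L) = (b : L) := by
      intro σ
      have := congrArg (fun t : integralClosure ℤ L => (t : L)) (hb σ)
      exact this
    obtain ⟨r, hr⟩ := (InfiniteGalois.mem_range_algebraMap_iff_fixed
      (k := ℚ) (K := L) (b : L)).mpr hfix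
    have hint : IsIntegral ℤ r := by
      have h1 : IsIntegral ℤ (algebraMap ℚ L r) := by
        rw [hr]
        exact b.2
      exact (isIntegral_algebraMap_iff (algebraMap ℚ L).injective).mp h1
    obtain ⟨n, hn⟩ := IsIntegrallyClosed.algebraMap_eq_of_integral hint
    refine ⟨n, Subtype.ext ?_⟩
    rw [← hr, ← hn]
    simp

theorem h54_continuousSMul [Algebra.IsIntegral ℚ L] :
    letI : TopologicalSpace (integralClosure ℤ L) := ⊥
    ContinuousSMul (L ≃ₐ[ℚ] L) (integralClosure ℤ L) := by
  let _ : TopologicalSpace (integralClosure ℤ L) := ⊥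
  have : DiscreteTopology (integralClosure ℤ L) := ⟨rfl⟩
  rw [continuousSMul_iff_stabilizer_isOpen]
  intro b
  have hstab : MulAction.stabilizer (L ≃ₐ[ℚ] L) b =
      MulAction.stabilizer (L ≃ₐ[ℚ] L) (b : L) := by
    ext σ
    rw [MulAction.mem_stabilizer_iff, MulAction.mem_stabilizer_iff, Subtype.ext_iff]
    rfl
  rw [hstab]
  exact stabilizer_isOpen_of_isIntegral (b : L)

/-- Existence of a prime above `l` and an automorphism satisfying the Frobenius congruence. -/
theorem h54_exists_frobCongr [IsGalois ℚ L] (l : ℕ) (hl : l.Prime) :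
    ∃ (Q : Ideal (integralClosure ℤ L)) (_ : Q.IsPrime) (σ : L ≃ₐ[ℚ] L),
      (l : integralClosure ℤ L) ∈ Q ∧ H54FrobCongr Q l σ := by
  let _ : TopologicalSpace (integralClosure ℤ L) := ⊥
  have : DiscreteTopology (integralClosure ℤ L) := ⟨rfl⟩
  have := h54_smulCommClass (L := L)
  have := h54_isInvariant (L := L)
  have := h54_continuousSMul (L := L)
  have hlprime : Prime (l : ℤ) := Nat.prime_iff_prime_int.mp hl
  have hPmax : (Ideal.span {(l : ℤ)}).IsMaximal :=
    PrincipalIdealRing.isMaximal_of_irreducible hlprime.irreducible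
  obtain ⟨Q, hQmax, hQover⟩ :=
    Ideal.exists_maximal_ideal_liesOver_of_isIntegral
      (S := integralClosure ℤ L) (Ideal.span {(l : ℤ)})
  have : Q.IsPrime := hQmax.isPrime
  obtain ⟨τ, hτ⟩ := exists_frobenius_algEquiv l hl Q
  obtain ⟨⟨σ, hσ⟩, hστ⟩ := Ideal.Quotient.stabilizerHom_surjective_of_profinite
    (G := L ≃ₐ[ℚ] L) (Ideal.span {(l : ℤ)}) Q τ
  have hmem : ((l : ℕ) : integralClosure ℤ L) ∈ Q := by
    have h2 : (l : ℤ) ∈ Q.under ℤ := by
      rw [← Q.over_def (Ideal.span {(l : ℤ)})]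
      exact Ideal.mem_span_singleton_self _
    simpa [Ideal.under, Ideal.mem_comap] using h2
  have H : ∀ b : integralClosure ℤ L,
      ∃ q : integralClosure ℤ L, q ∈ Q ∧ σ (b : L) = (b : L) ^ l + (q : L) := by
    intro b
    refine ⟨σ • b - b ^ l, ?_, ?_⟩
    · have h1 := congrArg (fun f => f (Ideal.Quotient.mk Q b)) hστ
      simp only [Ideal.Quotient.stabilizerHom_apply] at h1
      rw [hτ, ← map_pow] at h1
      exact Ideal.Quotient.eq.mp h1
    · change σ (b : L) = (b : L) ^ l + (σ (b : L) - (b : L) ^ l)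
      ring
  exact ⟨Q, this, σ, hmem, H⟩

/-- Existence of Frobenius elements in the Galois group of an algebraic Galois extension of
`ℚ` at every prime. -/
theorem h54_exists_isFrobeniusAt_generic [IsGalois ℚ L] (l : ℕ) (hl : l.Prime) :
    ∃ (A : ValuationSubring L) (σ : L ≃ₐ[ℚ] L), A.LiesOverPrime l ∧ A.IsFrobeniusAt σ l := by
  obtain ⟨Q, hQ, σ, hmem, hcongr⟩ := h54_exists_frobCongr (L := L) l hl
  have : Algebra.IsAlgebraic ℤ L :=
    IsFractionRing.comap_isAlgebraic_iff.mpr (inferInstance : Algebra.IsAlgebraic ℚ L)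
  exact ⟨h54ValSubring Q, σ, h54_liesOverPrime Q l hmem,
    h54_isFrobeniusAt Q l hl.ne_zero σ hcongr⟩

end Generic

/-- `ℚ̄ / ℚ` is algebraic, for the algebra structure used by the frozen statements. -/
theorem h54_isAlgebraic_rat : Algebra.IsAlgebraic ℚ (AlgebraicClosure ℚ) :=
  AlgebraicClosure.isAlgebraic ℚ

theorem h54_isGalois : IsGalois ℚ (AlgebraicClosure ℚ) :=
  haveI := h54_isAlgebraic_rat
  haveI : IsAlgClosure ℚ (AlgebraicClosure ℚ) := ⟨inferInstance, inferInstance⟩
  IsGalois.mk

/-- Existence of Frobenius elements in the absolute Galois group of `ℚ` at every prime. -/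
theorem h54_exists_isFrobeniusAt (l : ℕ) (hl : l.Prime) :
    ∃ (A : ValuationSubring (AlgebraicClosure ℚ))
      (σ : AlgebraicClosure ℚ ≃ₐ[ℚ] AlgebraicClosure ℚ),
      A.LiesOverPrime l ∧ A.IsFrobeniusAt σ l :=
  haveI := h54_isGalois
  h54_exists_isFrobeniusAt_generic l hl

end Fermat.Agent.S54
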