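import Fermat.Statements.S54

set_option autoImplicit false
open GaloisRep GaloisRep.DeformationRingData

namespace Fermat.Agent.S54

open Polynomial in
/-- On a finite free module, the trace is minus the next coefficient of the characteristic
polynomial. -/
theorem h54_trace_eq_neg_nextCoeff {R : Type} [CommRing R] {M : Type} [AddCommGroup M]
    [Module R M] [Module.Free R M] [Module.Finite R M] (f : Module.End R M) :
    LinearMap.trace R M f = -(LinearMap.charpoly f).nextCoeff := by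
  classical
  rw [LinearMap.charpoly_def, LinearMap.trace_eq_matrix_trace R (Module.Free.chooseBasis R M) f,
    Matrix.trace_eq_neg_charpoly_nextCoeff]

open Polynomial in
/-- The trace can be read off from a characteristic polynomial of the shape `X² - aX + b`. -/
theorem h54_trace_eq_of_charpoly {R : Type} [CommRing R] [Nontrivial R] {M : Type}
    [AddCommGroup M] [Module R M] [Module.Free R M] [Module.Finite R M] (f : Module.End R M)
    (a b : R) (h : LinearMap.charpoly f = X ^ 2 - C a * X + C b) :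
    LinearMap.trace R M f = a := by
  rw [h54_trace_eq_neg_nextCoeff, h]
  have hdeg : (X ^ 2 - C a * X + C b : R[X]).natDegree = 2 := by
    have h1 : (X ^ 2 - C a * X + C b : R[X]) = C 1 * X ^ 2 + C (-a) * X + C b := by
      rw [C_neg, C_1]; ring
    rw [h1]
    exact natDegree_quadratic one_ne_zero
  rw [nextCoeff_of_natDegree_pos (by rw [hdeg]; norm_num), hdeg]
  simp [coeff_C, coeff_X_pow]

/-- Equivalent adic Galois representations have the same traces. -/
theorem h54_trace_eq_of_equiv {A : Type} [CommRing A] [IsLocalRing A] {ρ₁ ρ₂ : GaloisRepAdic A}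
    (e : GaloisRepAdic.Equiv ρ₁ ρ₂) (σ : AlgebraicClosure ℚ ≃ₐ[ℚ] AlgebraicClosure ℚ) :
    LinearMap.trace A ρ₂.V (ρ₂.ρ σ) = LinearMap.trace A ρ₁.V (ρ₁.ρ σ) := by
  have hconj : e.toLinearEquiv.conj (ρ₁.ρ σ) = ρ₂.ρ σ := by
    apply LinearMap.ext
    intro x
    rw [LinearEquiv.conj_apply]
    simp only [LinearMap.coe_comp, LinearEquiv.coe_coe, Function.comp_apply]
    rw [e.map_apply, LinearEquiv.apply_symm_apply]
  rw [← hconj, LinearMap.trace_conj']

/-- The trace of a base-changed adic Galois representation is the image of the trace. -/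
theorem h54_trace_baseChangeAlong {A B : Type} [CommRing A] [IsLocalRing A] [CommRing B]
    [IsLocalRing B] (φ : A →+* B) (hφ : IsLocalHom φ) (ρ : GaloisRepAdic A)
    (σ : AlgebraicClosure ℚ ≃ₐ[ℚ] AlgebraicClosure ℚ) :
    LinearMap.trace B (ρ.baseChangeAlong φ hφ).V ((ρ.baseChangeAlong φ hφ).ρ σ) =
      φ (LinearMap.trace A ρ.V (ρ.ρ σ)) := by
  let _ : Algebra A B := φ.toAlgebra
  exact LinearMap.trace_baseChange (ρ.ρ σ) B

/-- Existence of Frobenius elements, as a property. -/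
def H54FrobExists : Prop :=
  ∀ l : ℕ, l.Prime → ∃ (A : ValuationSubring (AlgebraicClosure ℚ))
    (σ : AlgebraicClosure ℚ ≃ₐ[ℚ] AlgebraicClosure ℚ), A.LiesOverPrime l ∧ A.IsFrobeniusAt σ l

theorem h54_main (hfrob : H54FrobExists)
    {𝒪 : Type} [CommRing 𝒪] [IsDomain 𝒪] [IsDiscreteValuationRing 𝒪]
    [IsAdicComplete (IsLocalRing.maximalIdeal 𝒪) 𝒪]
    {ρbar : ResidualGaloisRep (IsLocalRing.ResidueField 𝒪)}
    {𝒟 : ∀ ⦃A : Type⦄ [CommRing A] [IsLocalRing A] [Algebra 𝒪 A], GaloisRepAdic A → Prop}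
    (D : GaloisRep.DeformationRingData 𝒪 ρbar 𝒟) {N : ℕ} [NeZero N] {S : Set ℕ}
    {θ : CuspForm.heckeAlgebra N 2 S →+* IsLocalRing.ResidueField 𝒪} {T : Type} [CommRing T]
    [IsLocalRing T] [IsNoetherianRing T] [IsAdicComplete (IsLocalRing.maximalIdeal T) T]
    [Algebra 𝒪 T] [IsLocalHom (algebraMap 𝒪 T)] [Module.Finite 𝒪 T] [Module.Free 𝒪 T]
    (H : CuspForm.HeckeGaloisRepDatum N S 𝒪 θ T) (hS : ∀ q : ℕ, q.Prime → q ∣ N → q ∈ S)
    (h𝒟 : 𝒟 H.ρ)
    (hres : H.ρ.residual.IsEquiv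
      (ρbar.baseChangeAlong (IsLocalRing.ResidueField.map (algebraMap 𝒪 T)))) :
    ∃ φ : D.R →ₐ[𝒪] T, Function.Surjective φ ∧ ∃ hφ : IsLocalHom (φ : D.R →+* T),
      (D.ρ.baseChangeAlong (φ : D.R →+* T) hφ).IsEquiv H.ρ := by
  obtain ⟨φ, ⟨hφ, ⟨e⟩⟩, -⟩ := D.universal T H.residue_surjective H.ρ h𝒟 hres
  refine ⟨φ, ?_, hφ, ⟨e⟩⟩
  -- every Hecke operator `T_ℓ` maps into the range of `φ`
  have hT : ∀ (l : ℕ) (hl : l.Prime) (hlN : ¬ l ∣ N) (hlS : l ∉ S),
      H.π (CuspForm.heckeAlgebra.T hl hlN hlS) ∈ φ.range := by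
    intro l hl hlN hlS
    obtain ⟨A, σ, hA, hσ⟩ := hfrob l hl
    have hchar := H.charpoly_frob l hl hlN hlS A hA σ hσ
    have htr := h54_trace_eq_of_charpoly (H.ρ.ρ σ) _ _ hchar
    rw [h54_trace_eq_of_equiv e σ, h54_trace_baseChangeAlong] at htr
    exact ⟨_, htr⟩
  -- hence the whole image of `π` lies in the range of `φ`
  have hπ : ∀ (x : Module.End ℂ (CuspForm (CongruenceSubgroup.Gamma0 N) 2))
      (hx : x ∈ CuspForm.heckeAlgebra N 2 S), H.π ⟨x, hx⟩ ∈ φ.range := by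
    intro x hx
    refine Algebra.adjoin_induction (R := ℤ) (s := CuspForm.heckeGenerators N 2 S)
      (p := fun x hx => H.π ⟨x, hx⟩ ∈ φ.range) ?_ ?_ ?_ ?_ hx
    · rintro x (⟨l, hl, hlN, hlS, rfl⟩ | ⟨q, hqN, hq, hqS, rfl⟩)
      · exact hT l hl hlN hlS
      · exact absurd (hS q hq hqN) hqS
    · intro r
      have h1 : (⟨algebraMap ℤ _ r, Subalgebra.algebraMap_mem _ r⟩ : CuspForm.heckeAlgebra N 2 S)
          = ((r : ℤ) : CuspForm.heckeAlgebra N 2 S) := by
        apply Subtype.ext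
        simp
      rw [h1, map_intCast]
      exact intCast_mem _ r
    · intro x y hx hy hx' hy'
      have h1 : (⟨x + y, add_mem hx hy⟩ : CuspForm.heckeAlgebra N 2 S) = ⟨x, hx⟩ + ⟨y, hy⟩ := rfl
      rw [h1, map_add]
      exact add_mem hx' hy'
    · intro x y hx hy hx' hy'
      have h1 : (⟨x * y, mul_mem hx hy⟩ : CuspForm.heckeAlgebra N 2 S) = ⟨x, hx⟩ * ⟨y, hy⟩ := rfl
      rw [h1, map_mul]
      exact mul_mem hx' hy'
  have hrange : Set.range H.π ⊆ (φ.range : Set T) := by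
    rintro _ ⟨⟨x, hx⟩, rfl⟩
    exact hπ x hx
  have htop : (⊤ : Subalgebra 𝒪 T) ≤ φ.range := by
    rw [← H.adjoin_range_π]
    exact Algebra.adjoin_le hrange
  intro t
  exact htop (Algebra.mem_top : t ∈ (⊤ : Subalgebra 𝒪 T))

end Fermat.Agent.S54
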