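import Fermat.Statements.S54
import Mathlib.RingTheory.Polynomial.Content
import Mathlib.RingTheory.Localization.Integral

set_option autoImplicit false

namespace Fermat.Agent.S54

open Polynomial

section ValRing

variable {L : Type*} [Field L]

/-- The carrier of the localisation of the ring of algebraic integers of `L` at a prime `Q`,
viewed inside `L`. -/
def h54Carrier (Q : Ideal (integralClosure ℤ L)) : Set L :=
  {x | ∃ b s : integralClosure ℤ L, s ∉ Q ∧ x * (s : L) = (b : L)}

/-- Key induction: if `x` is a root of a polynomial over the algebraic integers, not all of whose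
coefficients lie in the prime `Q`, then `x` or `x⁻¹` lies in the localisation at `Q`. -/
theorem h54_mem_or_inv_mem_aux (Q : Ideal (integralClosure ℤ L)) [Q.IsPrime] (x : L) :
    ∀ (n : ℕ) (p : (integralClosure ℤ L)[X]), p.natDegree ≤ n → aeval x p = 0 →
      (∃ i, p.coeff i ∉ Q) → x ∈ h54Carrier Q ∨ x⁻¹ ∈ h54Carrier Q := by
  intro n
  induction n with
  | zero =>
    intro p hp hx hcoeff
    exfalso
    obtain ⟨i, hi⟩ := hcoeff
    have hpC := eq_C_of_natDegree_le_zero hp
    rw [hpC, aeval_C] at hx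
    have h0 : p.coeff 0 = 0 := by
      apply Subtype.ext
      simpa using hx
    rw [h0, C_0] at hpC
    rw [hpC, coeff_zero] at hi
    exact hi Q.zero_mem
  | succ n ih =>
    intro p hp hx hcoeff
    by_cases hdeg : p.natDegree ≤ n
    · exact ih p hdeg hx hcoeff
    have hdeg' : p.natDegree = n + 1 := by omega
    have hint : IsIntegral (integralClosure ℤ L) (p.leadingCoeff • x) :=
      isIntegral_leadingCoeff_smul p x hx
    have hint' : IsIntegral ℤ (p.leadingCoeff • x) := isIntegral_trans _ hint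
    have hsmul : p.leadingCoeff • x = (p.leadingCoeff : L) * x := rfl
    rw [hsmul] at hint'
    set c : integralClosure ℤ L := p.leadingCoeff with hc
    set d : integralClosure ℤ L := ⟨(c : L) * x, hint'⟩ with hd
    have hdval : (d : L) = (c : L) * x := rfl
    by_cases hcQ : c ∈ Q
    · by_cases hdQ : d ∈ Q
      · -- both in `Q`: lower the degree
        set p₁ : (integralClosure ℤ L)[X] := p.eraseLead + C d * X ^ n with hp₁
        have hp₁deg : p₁.natDegree ≤ n := by
          refine (natDegree_add_le _ _).trans (max_le ?_ (natDegree_C_mul_X_pow_le _ _))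
          have := eraseLead_natDegree_le p
          omega
        have hp₁x : aeval x p₁ = 0 := by
          have h1 : aeval x p = aeval x p.eraseLead + (c : L) * x ^ (n + 1) := by
            conv_lhs => rw [← eraseLead_add_C_mul_X_pow p]
            rw [map_add, map_mul, aeval_C, map_pow, aeval_X, hdeg']
            rfl
          have h2 : aeval x p₁ = aeval x p.eraseLead + (d : L) * x ^ n := by
            rw [hp₁, map_add, map_mul, aeval_C, map_pow, aeval_X]
            rfl
          rw [h2, hdval]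
          rw [hx] at h1
          rw [h1]
          ring
        obtain ⟨i, hi⟩ := hcoeff
        have hi' : i ≠ p.natDegree := by
          rintro rfl
          exact hi hcQ
        refine ih p₁ hp₁deg hp₁x ⟨i, ?_⟩
        rw [hp₁, coeff_add, eraseLead_coeff_of_ne i hi', coeff_C_mul, coeff_X_pow]
        intro hmem
        apply hi
        have h3 : d * (if i = n then 1 else 0) ∈ Q := Q.mul_mem_right _ hdQ
        have := Q.sub_mem hmem h3
        simpa using this
      · -- `c ∈ Q`, `d ∉ Q`: the inverse lies in the localisation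
        right
        refine ⟨c, d, hdQ, ?_⟩
        have hx0 : x ≠ 0 := by
          rintro rfl
          apply hdQ
          have : d = 0 := Subtype.ext (by rw [hdval]; simp)
          rw [this]
          exact Q.zero_mem
        rw [hdval]
        field_simp
    · left
      exact ⟨d, c, hcQ, by rw [hdval]; ring⟩

variable [CharZero L] [Algebra.IsAlgebraic ℤ L]

/-- The localisation of the ring of algebraic integers at a prime is a valuation ring. -/
theorem h54_mem_or_inv_mem (Q : Ideal (integralClosure ℤ L)) [Q.IsPrime] (x : L) :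
    x ∈ h54Carrier Q ∨ x⁻¹ ∈ h54Carrier Q := by
  obtain ⟨p0, hp0, hx0⟩ := Algebra.IsAlgebraic.isAlgebraic (R := ℤ) x
  have hprim : p0.primPart.IsPrimitive := isPrimitive_primPart p0
  have hx1 : aeval x p0.primPart = 0 := by
    have h1 : aeval x p0 = ((p0.content : ℤ) : L) * aeval x p0.primPart := by
      conv_lhs => rw [eq_C_content_mul_primPart p0]
      rw [map_mul, aeval_C]
      simp
    rw [hx0] at h1
    have hc : ((p0.content : ℤ) : L) ≠ 0 := by
      rw [Int.cast_ne_zero]
      exact fun h => hp0 (content_eq_zero_iff.mp h)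
    exact (mul_eq_zero.mp h1.symm).resolve_left hc
  refine h54_mem_or_inv_mem_aux Q x _
    (p0.primPart.map (algebraMap ℤ (integralClosure ℤ L))) le_rfl ?_ ?_
  · rw [aeval_map_algebraMap]
    exact hx1
  · by_contra hall
    push Not at hall
    set I : Ideal ℤ := Q.comap (algebraMap ℤ (integralClosure ℤ L)) with hI
    have hmem : ∀ i, p0.primPart.coeff i ∈ I := by
      intro i
      have := hall i
      rw [coeff_map] at this
      exact this
    obtain ⟨g, hg⟩ : ∃ g : ℤ, I = Ideal.span {g} :=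
      ⟨Submodule.IsPrincipal.generator I, (Ideal.span_singleton_generator I).symm⟩
    have hdvd : C g ∣ p0.primPart := by
      rw [C_dvd_iff_dvd_coeff]
      intro i
      have := hmem i
      rw [hg, Ideal.mem_span_singleton] at this
      exact this
    have hunit : IsUnit g := hprim g hdvd
    have htop : I = ⊤ := by
      rw [hg, Ideal.span_singleton_eq_top]
      exact hunit
    have h1 : (1 : ℤ) ∈ I := by rw [htop]; trivial
    have h1' : (1 : integralClosure ℤ L) ∈ Q := by
      have := h1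
      rw [hI, Ideal.mem_comap, map_one] at this
      exact this
    exact (Ideal.IsPrime.ne_top inferInstance) ((Ideal.eq_top_iff_one Q).mpr h1')

/-- The localisation of the ring of algebraic integers of `L` at a prime `Q`, as a valuation
subring of `L`. -/
def h54ValSubring (Q : Ideal (integralClosure ℤ L)) [Q.IsPrime] : ValuationSubring L where
  carrier := h54Carrier Q
  mul_mem' := by
    rintro x y ⟨b₁, s₁, hs₁, h₁⟩ ⟨b₂, s₂, hs₂, h₂⟩
    refine ⟨b₁ * b₂, s₁ * s₂, fun h => ?_, ?_⟩
    · rcases Ideal.IsPrime.mem_or_mem inferInstance h with h | h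
      · exact hs₁ h
      · exact hs₂ h
    · push_cast
      rw [← h₁, ← h₂]
      ring
  one_mem' := ⟨1, 1, fun h => (Ideal.IsPrime.ne_top inferInstance) ((Ideal.eq_top_iff_one Q).mpr h),
    by simp⟩
  add_mem' := by
    rintro x y ⟨b₁, s₁, hs₁, h₁⟩ ⟨b₂, s₂, hs₂, h₂⟩
    refine ⟨b₁ * s₂ + b₂ * s₁, s₁ * s₂, fun h => ?_, ?_⟩
    · rcases Ideal.IsPrime.mem_or_mem inferInstance h with h | h
      · exact hs₁ h
      · exact hs₂ h
    · push_cast
      rw [← h₁, ← h₂]
      ring
  zero_mem' := ⟨0, 1, fun h => (Ideal.IsPrime.ne_top inferInstance) ((Ideal.eq_top_iff_one Q).mpr h),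
    by simp⟩
  neg_mem' := by
    rintro x ⟨b, s, hs, h⟩
    exact ⟨-b, s, hs, by push_cast; rw [← h]; ring⟩
  mem_or_inv_mem' := h54_mem_or_inv_mem Q

theorem h54_mem_valSubring_iff (Q : Ideal (integralClosure ℤ L)) [Q.IsPrime] (x : L) :
    x ∈ h54ValSubring Q ↔ ∃ b s : integralClosure ℤ L, s ∉ Q ∧ x * (s : L) = (b : L) :=
  Iff.rfl

/-- Elements `q / s` with `q ∈ Q`, `s ∉ Q` lie in the maximal ideal. -/
theorem h54_mem_maximalIdeal (Q : Ideal (integralClosure ℤ L)) [Q.IsPrime]
    (y : h54ValSubring Q) (q s : integralClosure ℤ L) (hq : q ∈ Q) (hs : s ∉ Q)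
    (h : (y : L) * (s : L) = (q : L)) : y ∈ IsLocalRing.maximalIdeal (h54ValSubring Q) := by
  rw [IsLocalRing.mem_maximalIdeal, mem_nonunits_iff]
  intro hu
  obtain ⟨z, hz⟩ := hu.exists_right_inv
  obtain ⟨b', s', hs', hz'⟩ := z.2
  have h1 : ((s * s' : integralClosure ℤ L) : L) = ((q * b' : integralClosure ℤ L) : L) := by
    push_cast
    have hyz : (y : L) * (z : L) = 1 := by
      have := congrArg (fun t : h54ValSubring Q => (t : L)) hz
      simpa using this
    calc (s : L) * (s' : L) = ((y : L) * (z : L)) * ((s : L) * (s' : L)) := by rw [hyz, one_mul]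
      _ = ((y : L) * (s : L)) * ((z : L) * (s' : L)) := by ring
      _ = (q : L) * (b' : L) := by rw [h, hz']
  have h2 : s * s' = q * b' := Subtype.ext h1
  have h3 : s * s' ∈ Q := by
    rw [h2]
    exact Q.mul_mem_right _ hq
  rcases Ideal.IsPrime.mem_or_mem inferInstance h3 with h | h
  · exact hs h
  · exact hs' h

omit [CharZero L] [Algebra.IsAlgebraic ℤ L] in
theorem h54_one_notMem (Q : Ideal (integralClosure ℤ L)) [Q.IsPrime] :
    (1 : integralClosure ℤ L) ∉ Q :=
  fun h => (Ideal.IsPrime.ne_top inferInstance) ((Ideal.eq_top_iff_one Q).mpr h)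

/-- If `ℓ ∈ Q` then the valuation subring lies over `ℓ`. -/
theorem h54_liesOverPrime (Q : Ideal (integralClosure ℤ L)) [Q.IsPrime] (l : ℕ)
    (hl : (l : integralClosure ℤ L) ∈ Q) : (h54ValSubring Q).LiesOverPrime l := by
  unfold ValuationSubring.LiesOverPrime
  rw [ValuationSubring.mem_nonunits_iff_exists_mem_maximalIdeal]
  have hmem : (l : L) ∈ h54ValSubring Q := ⟨l, 1, h54_one_notMem Q, by simp⟩
  exact ⟨hmem, h54_mem_maximalIdeal Q ⟨l, hmem⟩ l 1 hl (h54_one_notMem Q) (by simp)⟩

/-- The Frobenius congruence hypothesis on `σ`, relative to the prime `Q` and the exponent `l`. -/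
def H54FrobCongr {K : Type*} [Field K] [Algebra K L] (Q : Ideal (integralClosure ℤ L))
    (l : ℕ) (σ : L ≃ₐ[K] L) : Prop :=
  ∀ b : integralClosure ℤ L, ∃ q : integralClosure ℤ L, q ∈ Q ∧ σ (b : L) = (b : L) ^ l + (q : L)

variable {K : Type*} [Field K] [Algebra K L]

theorem h54_map_mem (Q : Ideal (integralClosure ℤ L)) [Q.IsPrime] (l : ℕ)
    (σ : L ≃ₐ[K] L) (H : H54FrobCongr Q l σ) (x : L) (hx : x ∈ h54ValSubring Q) :
    σ x ∈ h54ValSubring Q := by
  obtain ⟨b, s, hs, h⟩ := hx
  obtain ⟨q₁, hq₁, h₁⟩ := H b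
  obtain ⟨q₂, hq₂, h₂⟩ := H s
  refine ⟨b ^ l + q₁, s ^ l + q₂, fun hmem => ?_, ?_⟩
  · have h3 : s ^ l ∈ Q := by
      have := Q.sub_mem hmem hq₂
      simpa using this
    exact hs (Ideal.IsPrime.mem_of_pow_mem inferInstance l h3)
  · push_cast
    rw [← h₁, ← h₂, ← map_mul, h]

theorem h54_symm_map_mem (Q : Ideal (integralClosure ℤ L)) [Q.IsPrime] (l : ℕ) (hl : l ≠ 0)
    (σ : L ≃ₐ[K] L) (H : H54FrobCongr Q l σ) (x : L) (hx : x ∈ h54ValSubring Q) :
    σ.symm x ∈ h54ValSubring Q := by
  obtain ⟨b, s, hs, h⟩ := hx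
  have hb' : IsIntegral ℤ (σ.symm (b : L)) := map_isIntegral_int σ.symm b.2
  have hs' : IsIntegral ℤ (σ.symm (s : L)) := map_isIntegral_int σ.symm s.2
  refine ⟨⟨_, hb'⟩, ⟨_, hs'⟩, fun hmem => ?_, ?_⟩
  · obtain ⟨q, hq, h₁⟩ := H ⟨_, hs'⟩
    apply hs
    have h2 : s = (⟨_, hs'⟩ : integralClosure ℤ L) ^ l + q := by
      apply Subtype.ext
      push_cast
      rw [← h₁]
      simp
    rw [h2]
    exact Q.add_mem (Ideal.pow_mem_of_mem Q hmem l (Nat.pos_of_ne_zero hl)) hq
  · show σ.symm x * σ.symm (s : L) = σ.symm (b : L)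
    rw [← map_mul, h]

open scoped Pointwise in
/-- An automorphism satisfying the Frobenius congruence lies in the decomposition group. -/
theorem h54_mem_decomposition (Q : Ideal (integralClosure ℤ L)) [Q.IsPrime] (l : ℕ) (hl : l ≠ 0)
    (σ : L ≃ₐ[K] L) (H : H54FrobCongr Q l σ) :
    σ ∈ (h54ValSubring Q).decompositionSubgroup K := by
  rw [MulAction.mem_stabilizer_iff]
  ext x
  rw [ValuationSubring.mem_pointwise_smul_iff_inv_smul_mem]
  have hinv : σ⁻¹ • x = σ.symm x := rfl
  rw [hinv]
  constructor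
  · intro hx
    have := h54_map_mem Q l σ H _ hx
    simpa using this
  · intro hx
    exact h54_symm_map_mem Q l hl σ H x hx

/-- An automorphism satisfying the Frobenius congruence is a Frobenius element. -/
theorem h54_isFrobeniusAt (Q : Ideal (integralClosure ℤ L)) [Q.IsPrime] (l : ℕ) (hl : l ≠ 0)
    (σ : L ≃ₐ[K] L) (H : H54FrobCongr Q l σ) :
    (h54ValSubring Q).IsFrobeniusAt σ l := by
  refine ⟨h54_mem_decomposition Q l hl σ H, fun x => ?_⟩
  obtain ⟨a, rfl⟩ := IsLocalRing.residue_surjective x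
  rw [← IsLocalRing.ResidueField.residue_smul, ← map_pow, ← sub_eq_zero, ← map_sub,
    IsLocalRing.residue_eq_zero_iff]
  obtain ⟨b, s, hs, h⟩ := a.2
  obtain ⟨q₁, hq₁, h₁⟩ := H b
  obtain ⟨q₂, hq₂, h₂⟩ := H s
  have hs' : s ^ l + q₂ ∉ Q := by
    intro hmem
    have h3 : s ^ l ∈ Q := by
      have := Q.sub_mem hmem hq₂
      simpa using this
    exact hs (Ideal.IsPrime.mem_of_pow_mem inferInstance l h3)
  have hs'' : (s ^ l + q₂) * s ^ l ∉ Q := by
    intro hmem
    rcases Ideal.IsPrime.mem_or_mem inferInstance hmem with h' | h'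
    · exact hs' h'
    · exact hs (Ideal.IsPrime.mem_of_pow_mem inferInstance l h')
  refine h54_mem_maximalIdeal Q _ (q₁ * s ^ l - b ^ l * q₂) ((s ^ l + q₂) * s ^ l)
    (Q.sub_mem (Q.mul_mem_right _ hq₁) (Q.mul_mem_left _ hq₂)) hs'' ?_
  have hcoe : (((⟨σ, h54_mem_decomposition Q l hl σ H⟩ :
      (h54ValSubring Q).decompositionSubgroup K) • a - a ^ l : h54ValSubring Q) : L) =
      σ (a : L) - (a : L) ^ l := rfl
  rw [hcoe]
  push_cast
  have h3 : σ (a : L) * ((s : L) ^ l + (q₂ : L)) = (b : L) ^ l + (q₁ : L) := by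
    rw [← h₁, ← h₂, ← map_mul, h]
  have h4 : (a : L) ^ l * (s : L) ^ l = (b : L) ^ l := by
    rw [← mul_pow, h]
  linear_combination (s : L) ^ l * h3 - ((s : L) ^ l + (q₂ : L)) * h4

end ValRing

end Fermat.Agent.S54
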