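import Mathlib.Data.Nat.Prime.Int
import Mathlib.RingTheory.SimpleRing.Principal
import Mathlib.RingTheory.Valuation.ValuationSubring
import Mathlib.RingTheory.Polynomial.Content
import Mathlib.RingTheory.IntegralClosure.IsIntegralClosure.Basic
import Mathlib.Tactic.Ring
import Mathlib.Tactic.GCongr

set_option autoImplicit false

namespace Fermat.Agent.S54

open Polynomial

/-- Key lemma: if `x` lies in a valuation subring `A` of `L`, `B ⊆ A` is a subalgebra which is
integrally closed in `L`, and `x` is a root of a polynomial over `B` one of whose coefficients is a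
unit of `A`, then `x = b / s` with `b, s ∈ B` and `s` a unit of `A`. -/
theorem h96_exists_frac_of_root {L : Type*} [Field L] (A : ValuationSubring L)
    (B : Subalgebra ℤ L) (hBcl : ∀ y : L, IsIntegral B y → y ∈ B)
    (x : L) (hx : x ∈ A) :
    ∀ (n : ℕ) (p : B[X]), p.natDegree ≤ n → aeval x p = 0 →
      (∃ i, ((p.coeff i : B) : L) ∉ A.nonunits) →
      ∃ b ∈ B, ∃ s ∈ B, s ∉ A.nonunits ∧ x * s = b := by
  intro n
  induction n with
  | zero =>
    intro p hp h0 hi
    obtain ⟨i, hi⟩ := hi
    exfalso
    rw [Polynomial.eq_C_of_natDegree_le_zero hp] at h0 hi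
    rw [aeval_C] at h0
    have h00 : ((p.coeff 0 : B) : L) = 0 := h0
    have h000 : p.coeff 0 = 0 := Subtype.ext h00
    rw [h000] at hi
    apply hi
    simp only [map_zero, coeff_zero, ZeroMemClass.coe_zero]
    rw [ValuationSubring.mem_nonunits_iff]
    simp
  | succ n ih =>
    intro p hp h0 hi
    obtain ⟨i, hi⟩ := hi
    by_cases hdeg : p.natDegree ≤ n
    · exact ih p hdeg h0 ⟨i, hi⟩
    have hdeg' : p.natDegree = n + 1 := by omega
    have hy : ((p.leadingCoeff : B) : L) * x ∈ B := by
      apply hBcl
      have := isIntegral_leadingCoeff_smul p x h0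
      rwa [Subalgebra.smul_def, smul_eq_mul] at this
    by_cases hau : ((p.leadingCoeff : B) : L) ∈ A.nonunits
    · -- the leading coefficient is a non-unit: lower the degree
      have hyn : ((p.leadingCoeff : B) : L) * x ∈ A.nonunits := by
        rw [ValuationSubring.mem_nonunits_iff] at hau ⊢
        rw [map_mul]
        have hx1 : A.valuation x ≤ 1 := (ValuationSubring.valuation_le_one_iff A x).mpr hx
        calc A.valuation ((p.leadingCoeff : B) : L) * A.valuation x
            ≤ A.valuation ((p.leadingCoeff : B) : L) * 1 := by gcongr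
          _ < 1 := by rwa [mul_one]
      let y : B := ⟨((p.leadingCoeff : B) : L) * x, hy⟩
      let p1 : B[X] := p.eraseLead + C y * X ^ n
      have hp1deg : p1.natDegree ≤ n := by
        refine (natDegree_add_le _ _).trans (max_le ?_ (natDegree_C_mul_X_pow_le _ _))
        have := eraseLead_natDegree_le p
        omega
      have hp1 : aeval x p1 = 0 := by
        have h1 : aeval x p = aeval x p.eraseLead +
            ((p.leadingCoeff : B) : L) * x ^ (n + 1) := by
          conv_lhs => rw [← eraseLead_add_C_mul_X_pow p]
          rw [map_add, map_mul, aeval_C, map_pow, aeval_X, hdeg']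
          rfl
        have h2 : aeval x p1 = aeval x p.eraseLead +
            (((p.leadingCoeff : B) : L) * x) * x ^ n := by
          simp only [p1, map_add, map_mul, aeval_C, map_pow, aeval_X]
          rfl
        rw [h2, ← h0, h1]
        ring
      have hp1c : ∃ i, ((p1.coeff i : B) : L) ∉ A.nonunits := by
        have hin : i ≠ p.natDegree := by
          rintro rfl
          exact hi hau
        refine ⟨i, ?_⟩
        have hc : p1.coeff i = p.coeff i + if i = n then y else 0 := by
          simp only [p1, coeff_add, coeff_C_mul, coeff_X_pow, eraseLead_coeff_of_ne i hin]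
          split_ifs <;> simp
        rw [hc]
        split_ifs with hi2
        · intro hmem
          apply hi
          have : ((p.coeff i : B) : L) = ((p.coeff i + y : B) : L) - (y : L) := by
            push_cast; ring
          rw [this]
          rw [ValuationSubring.mem_nonunits_iff] at hmem hyn ⊢
          exact Valuation.map_sub_lt _ hmem hyn
        · simpa using hi
      exact ih p1 hp1deg hp1 hp1c
    · exact ⟨((p.leadingCoeff : B) : L) * x, hy, p.leadingCoeff, (p.leadingCoeff).2, hau,
        by ring⟩

theorem h96_intCast_not_mem_nonunits {L : Type*} [Field L] (A : ValuationSubring L)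
    (l : ℕ) (hl : l.Prime) (hlA : (l : L) ∈ A.nonunits) (a : ℤ) (ha : ¬ (l : ℤ) ∣ a) :
    (a : L) ∉ A.nonunits := by
  intro hmem
  have hcop : IsCoprime (l : ℤ) a :=
    (Prime.coprime_iff_not_dvd (Nat.prime_iff_prime_int.mp hl)).mpr ha
  obtain ⟨u, v, huv⟩ := hcop
  have h1 : ((u : L) * (l : L) + (v : L) * (a : L)) = 1 := by
    have := congrArg (Int.cast : ℤ → L) huv
    push_cast at this
    exact this
  rw [ValuationSubring.mem_nonunits_iff] at hmem hlA
  have hu : A.valuation (u : L) ≤ 1 :=
    (ValuationSubring.valuation_le_one_iff A _).mpr (intCast_mem A.toSubring u)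
  have hv : A.valuation (v : L) ≤ 1 :=
    (ValuationSubring.valuation_le_one_iff A _).mpr (intCast_mem A.toSubring v)
  have h2 : A.valuation ((u : L) * (l : L) + (v : L) * (a : L)) < 1 := by
    apply Valuation.map_add_lt
    · rw [map_mul]
      calc A.valuation (u : L) * A.valuation (l : L) ≤ 1 * A.valuation (l : L) := by gcongr
        _ < 1 := by rwa [one_mul]
    · rw [map_mul]
      calc A.valuation (v : L) * A.valuation (a : L) ≤ 1 * A.valuation (a : L) := by gcongr
        _ < 1 := by rwa [one_mul]
  rw [h1, map_one] at h2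
  exact lt_irrefl _ h2

theorem h96_exists_frac {L : Type*} [Field L] [CharZero L] (A : ValuationSubring L)
    (l : ℕ) (hl : l.Prime) (hlA : (l : L) ∈ A.nonunits)
    (x : L) (hx : x ∈ A) (hxalg : IsAlgebraic ℤ x) :
    ∃ b ∈ integralClosure ℤ L, ∃ s ∈ integralClosure ℤ L, s ∉ A.nonunits ∧ x * s = b := by
  obtain ⟨p, hp0, hp⟩ := hxalg
  have hq : aeval x p.primPart = 0 := aeval_primPart_eq_zero hp0 hp
  have hprim : p.primPart.IsPrimitive := isPrimitive_primPart p
  have hex : ∃ i, ¬ (l : ℤ) ∣ p.primPart.coeff i := by
    by_contra hcon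
    simp only [not_exists, not_not] at hcon
    have hdvd : C (l : ℤ) ∣ p.primPart := (C_dvd_iff_dvd_coeff _ _).mpr hcon
    have hunit : IsUnit (l : ℤ) := hprim _ hdvd
    exact (Nat.prime_iff_prime_int.mp hl).not_isUnit hunit
  obtain ⟨i, hi⟩ := hex
  have hBcl : ∀ y : L, IsIntegral (integralClosure ℤ L) y → y ∈ integralClosure ℤ L :=
    fun y hy => isIntegral_trans (R := ℤ) (A := integralClosure ℤ L) y hy
  refine h96_exists_frac_of_root A (integralClosure ℤ L) hBcl x hx
    (p.primPart.map (algebraMap ℤ (integralClosure ℤ L))).natDegree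
    (p.primPart.map (algebraMap ℤ (integralClosure ℤ L))) le_rfl ?_ ⟨i, ?_⟩
  · rw [aeval_map_algebraMap]
    exact hq
  · rw [coeff_map]
    have : ((algebraMap ℤ (integralClosure ℤ L) (p.primPart.coeff i) : integralClosure ℤ L) : L)
        = ((p.primPart.coeff i : ℤ) : L) := by
      simp
    rw [this]
    exact h96_intCast_not_mem_nonunits A l hl hlA _ hi

end Fermat.Agent.S54
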